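import Fermat.Agent.Lib.RR.H638.CechFun

/-!
# Non-special effective divisors (helper638)

From Riemann's theorem (`IsRiemannGenus K F g`) alone — no duality, no canonical divisor:

`exists_nonspecial`: if `F / K` has infinitely many places (e.g. `K` infinite), then for every
finite set `S` of places and every `d ≤ g` there are `d` distinct places `P₁, …, P_d ∉ S` with
`ℓ(P₁ + ⋯ + P_d) = 1`, i.e. `L(P₁ + ⋯ + P_d) = K`.

This is input (G2) of the S18 endgames (origin/helper573:coord/S18-endgame-helper573.md).
-/

set_option autoImplicit false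

noncomputable section

open AlgebraicCurve

namespace Fermat.Agent.Lib.RR.H638

open Fermat.Agent.Lib.RR

variable {K F : Type*} [Field K] [Field F] [Algebra K F]

/-- An element of `L(E + P) ∖ L(E)` has order exactly `-(E P + 1)` at `P`. -/
theorem ord_eq_of_mem_of_not_mem (E : Divisor K F) (v : Place K F) {f : F}
    (hf : f ∈ riemannRochSpace (E + prim v)) (hf' : f ∉ riemannRochSpace E) :
    v.ord f = -(E v + 1) := by
  have hf0 : f ≠ 0 := fun h => hf' (h ▸ Submodule.zero_mem _)
  have h1 := (mem_L_iff.mp hf v).resolve_left hf0
  simp only [Finsupp.coe_add, Pi.add_apply, prim_apply_self] at h1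
  by_contra hne
  apply hf'
  rw [mem_L_iff]
  intro w
  right
  by_cases hw : w = v
  · subst hw; omega
  · have h2 := (mem_L_iff.mp hf w).resolve_left hf0
    simpa [prim_apply_of_ne hw] using h2

section

variable [FF1 K F]

/-- If `ℓ(E + P) > ℓ(E)` for all `P` in a finset `T` of places outside the support of `E`, then
`ℓ(E + ∑_{P ∈ T} P) ≥ ℓ(E) + #T`. -/
theorem ell_add_divT_ge (E : Divisor K F) (T : Finset (Place K F))
    (hT : ∀ v ∈ T, ell E < ell (E + prim v)) :
    ell E + T.card ≤ ell (E + divT T) := by
  classical
  induction T using Finset.induction_on with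
  | empty => simp [divT]
  | insert v T hv ih =>
    have ih' := ih (fun w hw => hT w (Finset.mem_insert_of_mem hw))
    have hvT := hT v (Finset.mem_insert_self v T)
    -- an element of L(E + v) not in L(E)
    have hne : ¬ riemannRochSpace (E + prim v) ≤ riemannRochSpace E := by
      intro hle
      have := Submodule.finrank_mono hle
      unfold ell at hvT
      omega
    obtain ⟨f, hf, hf'⟩ := SetLike.not_le_iff_exists.mp hne
    have hford := ord_eq_of_mem_of_not_mem E v hf hf'
    have hdiv : divT (insert v T) = divT T + prim v := by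
      unfold divT
      rw [Finset.sum_insert hv, add_comm]
    rw [hdiv, ← add_assoc, Finset.card_insert_of_notMem hv]
    -- f ∈ L(E + T + v) \ L(E + T)
    have hle : E + prim v ≤ E + divT T + prim v := by
      rw [Finsupp.le_def]; intro w
      have := divT_nonneg T w
      simp only [Finsupp.coe_add, Pi.add_apply]
      omega
    have hf1 : f ∈ riemannRochSpace (E + divT T + prim v) := L_mono hle hf
    have hf2 : f ∉ riemannRochSpace (E + divT T) := by
      intro hmem
      have hf0 : f ≠ 0 := fun h => hf' (h ▸ Submodule.zero_mem _)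
      have := (mem_L_iff.mp hmem v).resolve_left hf0
      simp only [Finsupp.coe_add, Pi.add_apply, divT_apply_not_mem hv] at this
      omega
    have hlt : ell (E + divT T) < ell (E + divT T + prim v) := by
      unfold ell
      apply Submodule.finrank_lt_finrank_of_lt
      refine lt_of_le_of_ne (L_mono ?_) ?_
      · rw [Finsupp.le_def]; intro w
        simp only [Finsupp.coe_add, Pi.add_apply]
        by_cases hw : w = v
        · subst hw; rw [prim_apply_self]; omega
        · rw [prim_apply_of_ne hw]; omega
      · intro heq
        exact hf2 (heq ▸ hf1)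
    omega

/-- One step: if `ℓ(E) = 1`-type bound `deg E + 1 - ℓ(E) < g`, then only finitely many places
`P ∉ supp E` can have `ℓ(E + P) > ℓ(E)`; quantitatively, any finset `T` of such places, disjoint
from the support of `E`, has `#T` bounded. -/
theorem card_le_of_ell_lt {g : ℕ} (hg : IsRiemannGenus K F g) (E : Divisor K F) :
    ∃ N : ℕ, ∀ T : Finset (Place K F), (∀ v ∈ T, ell E < ell (E + prim v)) →
      (Divisor.degree E + 1 - (ell E : ℤ) < g) → T.card < N := by
  obtain ⟨c, hc⟩ := hg
  refine ⟨(c - Divisor.degree E).toNat + 1, fun T hT hlt => ?_⟩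
  by_contra hcard
  push Not at hcard
  have h1 := ell_add_divT_ge E T hT
  have hdeg : Divisor.degree (E + divT T) = Divisor.degree E + T.card := by
    rw [map_add, degree_divT]
  have hc' : c ≤ Divisor.degree (E + divT T) := by
    rw [hdeg]
    have := Int.self_le_toNat (c - Divisor.degree E)
    have : ((c - Divisor.degree E).toNat : ℤ) + 1 ≤ (T.card : ℤ) := by exact_mod_cast hcard
    omega
  have h2 := hc _ hc'
  rw [hdeg] at h2
  have h3 : (ell E : ℤ) + T.card ≤ ell (E + divT T) := by exact_mod_cast h1
  omega

/-- **Existence of non-special effective divisors.**  Assume `F / K` has infinitely many places.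
For every finite set `S` of places and every `d ≤ g` there is a set `T` of `d` places outside `S`
with `ℓ(∑_{P ∈ T} P) = 1`. -/
theorem exists_nonspecial {g : ℕ} (hg : IsRiemannGenus K F g) [Infinite (Place K F)]
    (S : Finset (Place K F)) (d : ℕ) (hd : d ≤ g) :
    ∃ T : Finset (Place K F), T.card = d ∧ Disjoint T S ∧ ell (divT T) = 1 := by
  classical
  induction d with
  | zero => exact ⟨∅, rfl, Finset.disjoint_empty_left S, by simp [divT, ell_zero]⟩
  | succ d ih =>
    obtain ⟨T, hTc, hTS, hTl⟩ := ih (by omega)
    obtain ⟨N, hN⟩ := card_le_of_ell_lt hg (divT T)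
    have hdeg : Divisor.degree (divT T) + 1 - (ell (divT T) : ℤ) < g := by
      rw [degree_divT, hTl, hTc]
      push_cast
      omega
    -- choose N fresh places outside `S ∪ T`
    have hinf : (((S ∪ T : Finset (Place K F)) : Set (Place K F))ᶜ).Infinite :=
      Set.Finite.infinite_compl (Finset.finite_toSet _)
    obtain ⟨U, hUsub, hUcard⟩ := hinf.exists_subset_card_eq N
    have hex : ∃ v ∈ U, ¬ ell (divT T) < ell (divT T + prim v) := by
      by_contra hall
      push Not at hall
      have := hN U hall hdeg
      omega
    obtain ⟨v, hvU, hv⟩ := hex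
    have hvST : v ∉ S ∪ T := by
      have := hUsub (Finset.mem_coe.mpr hvU)
      simpa using this
    have hvS : v ∉ S := fun h => hvST (Finset.mem_union_left _ h)
    have hvT : v ∉ T := fun h => hvST (Finset.mem_union_right _ h)
    refine ⟨insert v T, ?_, ?_, ?_⟩
    · rw [Finset.card_insert_of_notMem hvT, hTc]
    · rw [Finset.disjoint_insert_left]
      exact ⟨hvS, hTS⟩
    · have hdiv : divT (insert v T) = divT T + prim v := by
        unfold divT
        rw [Finset.sum_insert hvT, add_comm]
      rw [hdiv]
      have hle : divT T ≤ divT T + prim v := by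
        rw [Finsupp.le_def]; intro w
        simp only [Finsupp.coe_add, Pi.add_apply]
        by_cases hw : w = v
        · subst hw; rw [prim_apply_self]; omega
        · rw [prim_apply_of_ne hw]; omega
      have := ell_mono hle
      omega

/-- Over an infinite constant field there are infinitely many places: the zeros of `x - c`,
`c ∈ K`, are pairwise distinct. -/
theorem infinite_place [Infinite K] : Infinite (Place K F) := by
  obtain ⟨x, hxt, -⟩ := FF1.exists_finite (K := K) (F := F)
  have hnc : ∀ c : K, x - algebraMap K F c ∉ Set.range (algebraMap K F) := by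
    rintro c ⟨b, hb⟩
    apply hxt
    have hx : x = algebraMap K F (b + c) := by
      rw [map_add, hb]; ring
    rw [hx]
    exact isAlgebraic_algebraMap _
  have hne : ∀ c : K, x - algebraMap K F c ≠ 0 := by
    intro c h0
    exact hnc c ⟨0, by rw [map_zero, h0]⟩
  have hz : ∀ c : K, ∃ v : Place K F, 0 < v.ord (x - algebraMap K F c) := by
    intro c
    obtain ⟨v, hv⟩ := zerosOf_nonempty (K := K) (hne c) (hnc c)
    exact ⟨v, mem_zerosOf.mp hv⟩
  choose z hz using hz
  refine Infinite.of_injective z ?_
  intro c c' hcc
  by_contra hne'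
  have h1 := hz c
  have h2 := hz c'
  rw [hcc] at h1
  have hsub : (x - algebraMap K F c') - (x - algebraMap K F c) = algebraMap K F (c - c') := by
    rw [map_sub]; ring
  have hcne : algebraMap K F (c - c') ≠ 0 := by
    rw [Ne, map_eq_zero, sub_eq_zero]; exact hne'
  -- strict version: the difference has positive order
  have h4 : 0 < (z c').ord ((x - algebraMap K F c') - (x - algebraMap K F c)) := by
    have := ord_add_of_le (z c') (f := x - algebraMap K F c') (g := -(x - algebraMap K F c))
      (n := 1) (Or.inr (by omega)) (Or.inr (by rw [ord_neg]; omega))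
    rw [← sub_eq_add_neg] at this
    rcases this with h | h
    · rw [hsub] at h; exact absurd h hcne
    · omega
  rw [hsub, ord_algebraMap] at h4
  exact lt_irrefl _ h4

/-- `L(∑_{P ∈ T} P) = K` for the divisors of `exists_nonspecial`. -/
theorem L_eq_range_of_ell_eq_one {E : Divisor K F} (hE : 0 ≤ E) (h : ell E = 1) :
    riemannRochSpace E = LinearMap.range (Algebra.linearMap K F) := by
  have hle : riemannRochSpace (0 : Divisor K F) ≤ riemannRochSpace E := L_mono hE
  have heq : riemannRochSpace (0 : Divisor K F) = riemannRochSpace E := by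
    apply Submodule.eq_of_le_of_finrank_eq hle
    have h0 : ell (0 : Divisor K F) = 1 := ell_zero
    unfold ell at h h0
    rw [h, h0]
  rw [← heq, L_zero]

/-- Version of `exists_nonspecial` in terms of `L`: `d ≤ g` places outside `S` such that every
function with at most simple poles at these places (and no other poles) is constant. -/
theorem exists_nonspecial' {g : ℕ} (hg : IsRiemannGenus K F g) [Infinite (Place K F)]
    (S : Finset (Place K F)) (d : ℕ) (hd : d ≤ g) :
    ∃ T : Finset (Place K F), T.card = d ∧ Disjoint T S ∧
      ∀ f : F, (∀ v : Place K F, v ∉ T → 0 ≤ v.ord f) → (∀ v ∈ T, -1 ≤ v.ord f) →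
        f ∈ Set.range (algebraMap K F) := by
  obtain ⟨T, hc, hdisj, hl⟩ := exists_nonspecial hg S d hd
  refine ⟨T, hc, hdisj, fun f h1 h2 => ?_⟩
  have hE : (0 : Divisor K F) ≤ divT T := by
    rw [Finsupp.le_def]; intro v; exact divT_nonneg T v
  have hf : f ∈ riemannRochSpace (divT T) := by
    rw [mem_L_iff]
    intro v
    right
    by_cases hv : v ∈ T
    · rw [divT_apply_mem hv]; exact h2 v hv
    · rw [divT_apply_not_mem hv]; simpa using h1 v hv
  rw [L_eq_range_of_ell_eq_one hE hl] at hf
  obtain ⟨c, hc⟩ := hf
  exact ⟨c, hc⟩

end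

end Fermat.Agent.Lib.RR.H638
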