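import Mathlib

/-!
# Linear algebra for the Čech formula (helper638)

`finrank_map_mkQ_of_exhaust`: if `V` is exhausted by an increasing chain of finite-dimensional
subspaces `Vₙ` with `dim Vₙ = dim (W ⊓ Vₙ) + g` for `n ≥ n₀`, then the image of `V` in `E ⧸ W`
has dimension `g`.
-/

set_option autoImplicit false

namespace Fermat.Agent.Lib.RR.H638

variable {K E : Type*} [Field K] [AddCommGroup E] [Module K E]

theorem finrank_map_mkQ_add (W U : Submodule K E) [Module.Finite K U] :
    Module.finrank K ↥(U.map W.mkQ) + Module.finrank K ↥(W ⊓ U) = Module.finrank K U := by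
  have h := LinearMap.finrank_range_add_finrank_ker (W.mkQ.comp U.subtype)
  have hr : LinearMap.range (W.mkQ.comp U.subtype) = U.map W.mkQ := by
    rw [LinearMap.range_comp, Submodule.range_subtype]
  have hk : LinearMap.ker (W.mkQ.comp U.subtype) = Submodule.comap U.subtype (W ⊓ U) := by
    rw [LinearMap.ker_comp, Submodule.ker_mkQ, Submodule.comap_inf, Submodule.comap_subtype_self,
      inf_top_eq]
  rw [hr, hk] at h
  have e := Submodule.comapSubtypeEquivOfLe (inf_le_right : W ⊓ U ≤ U)
  rw [← h, e.finrank_eq]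

theorem finrank_map_mkQ_of_exhaust (V W : Submodule K E) (Vn : ℕ → Submodule K E)
    (hmono : Monotone Vn) (hfin : ∀ n, Module.Finite K (Vn n)) (hVn : ∀ n, Vn n ≤ V)
    (hex : ∀ f ∈ V, ∃ n, f ∈ Vn n) (g n0 : ℕ)
    (hdim : ∀ n, n0 ≤ n → Module.finrank K (Vn n) = Module.finrank K ↥(W ⊓ Vn n) + g) :
    Module.Finite K ↥(V.map W.mkQ) ∧ Module.finrank K ↥(V.map W.mkQ) = g := by
  have hI : ∀ n, n0 ≤ n → Module.finrank K ↥((Vn n).map W.mkQ) = g := by
    intro n hn
    have := hfin n
    have h1 := finrank_map_mkQ_add W (Vn n)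
    have h2 := hdim n hn
    omega
  have hfinI : ∀ n, Module.Finite K ↥((Vn n).map W.mkQ) := fun n => by
    have := hfin n
    infer_instance
  have heq : ∀ n, n0 ≤ n → (Vn n0).map W.mkQ = (Vn n).map W.mkQ := by
    intro n hn
    have := hfinI n
    exact Submodule.eq_of_le_of_finrank_eq (Submodule.map_mono (hmono hn))
      ((hI n0 le_rfl).trans (hI n hn).symm)
  have htop : V.map W.mkQ = (Vn n0).map W.mkQ := by
    apply le_antisymm
    · rintro _ ⟨f, hf, rfl⟩
      obtain ⟨n, hn⟩ := hex f hf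
      have hle : Vn n ≤ Vn (max n n0) := hmono (le_max_left _ _)
      rw [heq (max n n0) (le_max_right _ _)]
      exact ⟨f, hle hn, rfl⟩
    · exact Submodule.map_mono (hVn n0)
  rw [htop]
  exact ⟨hfinI n0, hI n0 le_rfl⟩

end Fermat.Agent.Lib.RR.H638
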