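import Fermat.Agent.Lib.RR.Basic
import Fermat.Agent.Lib.RR.H638.LinAlg

/-!
# Čech formula for the Riemann genus (helper638)

For a function field `F / K` satisfying the standing hypotheses `FF1 K F` of the RR library and two
disjoint nonempty finite sets of places `Tz`, `Ti` ("zeros" and "poles"), put

* `B₀ = holOff Ti` (functions regular outside `Ti`),
* `B∞ = holOff Tz`,
* `Bm = holOff (Tz ∪ Ti)`.

Then `Bm / (B₀ + B∞)` is finite-dimensional of dimension `g`, the genus in the sense of
Riemann's theorem (`IsRiemannGenus K F g`; for `g = genusR K F` this is `exists_degree_bound` of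
the RR library, see `CechGenusR.lean`).
(`H¹` of the structure sheaf computed on the cover `{X ∖ Ti, X ∖ Tz}`).

Main results: `finrank_cech_map`, `finrank_cech_quot`, `genus_le_of_span`, `le_genus_of_indep`,
and the versions for the zeros and poles of a nonconstant function `x` (`zerosOf`, `polesOf`,
`finrank_cech_of_fun`).
-/

set_option autoImplicit false

noncomputable section

open AlgebraicCurve

namespace Fermat.Agent.Lib.RR.H638

open Fermat.Agent.Lib.RR

variable {K F : Type*} [Field K] [Field F] [Algebra K F]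

variable (K F) in
/-- `g` is the genus of `F / K` in the sense of Riemann's theorem:
`ℓ(D) = deg D + 1 - g` for all divisors of sufficiently large degree. -/
def IsRiemannGenus (g : ℕ) : Prop :=
  ∃ c : ℤ, ∀ D : Divisor K F, c ≤ Divisor.degree D →
    (ell D : ℤ) = Divisor.degree D + 1 - (g : ℤ)

/-- Functions regular outside the set `T` of places. -/
def holOff (T : Set (Place K F)) : Subalgebra K F where
  carrier := {f | ∀ v : Place K F, v ∉ T → 0 ≤ v.ord f}
  mul_mem' := by
    intro f g hf hg v hv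
    rw [← mem_iff_ord_nonneg] at *
    exact mul_mem ((mem_iff_ord_nonneg v f).mpr (hf v hv)) ((mem_iff_ord_nonneg v g).mpr (hg v hv))
  add_mem' := by
    intro f g hf hg v hv
    rw [← mem_iff_ord_nonneg] at *
    exact add_mem ((mem_iff_ord_nonneg v f).mpr (hf v hv)) ((mem_iff_ord_nonneg v g).mpr (hg v hv))
  algebraMap_mem' := by
    intro c v _
    rw [ord_algebraMap]

theorem mem_holOff {T : Set (Place K F)} {f : F} :
    f ∈ holOff T ↔ ∀ v : Place K F, v ∉ T → 0 ≤ v.ord f := Iff.rfl

theorem holOff_mono {T T' : Set (Place K F)} (h : T ⊆ T') : holOff T ≤ holOff T' :=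
  fun _ hf v hv => hf v (fun hvT => hv (h hvT))

/-- The reduced divisor `∑_{v ∈ T} v`. -/
def divT (T : Finset (Place K F)) : Divisor K F := ∑ v ∈ T, prim v

open scoped Classical in
theorem divT_apply (T : Finset (Place K F)) (v : Place K F) :
    divT T v = if v ∈ T then 1 else 0 := by
  unfold divT
  rw [Finsupp.finsetSum_apply]
  by_cases hv : v ∈ T
  · rw [if_pos hv, Finset.sum_eq_single v]
    · exact prim_apply_self v
    · intro w _ hw; exact prim_apply_of_ne (Ne.symm hw)
    · intro h; exact absurd hv h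
  · rw [if_neg hv]
    refine Finset.sum_eq_zero fun w hw => prim_apply_of_ne ?_
    rintro rfl; exact hv hw

theorem divT_apply_mem {T : Finset (Place K F)} {v : Place K F} (hv : v ∈ T) : divT T v = 1 := by
  classical
  rw [divT_apply, if_pos hv]

theorem divT_apply_not_mem {T : Finset (Place K F)} {v : Place K F} (hv : v ∉ T) :
    divT T v = 0 := by
  classical
  rw [divT_apply, if_neg hv]

theorem divT_nonneg (T : Finset (Place K F)) (v : Place K F) : 0 ≤ divT T v := by
  by_cases hv : v ∈ T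
  · rw [divT_apply_mem hv]; exact zero_le_one
  · rw [divT_apply_not_mem hv]

theorem degree_divT [FF1 K F] (T : Finset (Place K F)) : Divisor.degree (divT T) = T.card := by
  unfold divT
  rw [map_sum]
  simp

/-- `L(n T) ⊆ holOff T`. -/
theorem L_le_holOff (T : Finset (Place K F)) (n : ℕ) :
    riemannRochSpace (n • divT T) ≤ Subalgebra.toSubmodule (holOff (T : Set (Place K F))) := by
  intro f hf v hv
  have hv' : v ∉ T := fun h => hv (Finset.mem_coe.mpr h)
  rcases mem_L_iff.mp hf v with h | h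
  · rw [h, v.ord_zero]
  · simpa [divT_apply_not_mem hv'] using h

/-- `holOff T = ⋃ₙ L(n T)`. -/
theorem exists_mem_L_of_mem_holOff (T : Finset (Place K F)) {f : F}
    (hf : f ∈ holOff (T : Set (Place K F))) :
    ∃ n : ℕ, f ∈ riemannRochSpace (n • divT T) := by
  classical
  refine ⟨∑ v ∈ T, (v.ord f).natAbs, ?_⟩
  rw [mem_L_iff]
  intro v
  right
  by_cases hv : v ∈ T
  · have h1 : (v.ord f).natAbs ≤ ∑ w ∈ T, (w.ord f).natAbs :=
      Finset.single_le_sum (f := fun w => (w.ord f).natAbs) (fun _ _ => Nat.zero_le _) hv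
    simp only [Finsupp.coe_smul, Pi.smul_apply, divT_apply_mem hv, mul_one, nsmul_eq_mul]
    omega
  · have := hf v (fun h => hv (Finset.mem_coe.mp h))
    simp only [Finsupp.coe_smul, Pi.smul_apply, divT_apply_not_mem hv, nsmul_eq_mul, mul_zero,
      neg_zero]
    exact this

theorem nsmul_divT_mono (T : Finset (Place K F)) {m n : ℕ} (h : m ≤ n) :
    m • divT T ≤ n • divT T := by
  rw [Finsupp.le_def]
  intro v
  simp only [Finsupp.coe_smul, Pi.smul_apply, nsmul_eq_mul]
  exact mul_le_mul_of_nonneg_right (by exact_mod_cast h) (divT_nonneg T v)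

/-! ### The two-chart computation -/

section Cech

variable (Tz Ti : Finset (Place K F))

/-- The divisor `n (Tz + Ti)`. -/
def divM (n : ℕ) : Divisor K F := n • divT Tz + n • divT Ti

theorem divM_apply (n : ℕ) (v : Place K F) :
    divM Tz Ti n v = n * divT Tz v + n * divT Ti v := by
  simp [divM]

theorem divM_mono {m n : ℕ} (h : m ≤ n) : divM Tz Ti m ≤ divM Tz Ti n :=
  add_le_add (nsmul_divT_mono Tz h) (nsmul_divT_mono Ti h)

theorem nsmul_divT_le_divM_right (n : ℕ) : n • divT Ti ≤ divM Tz Ti n := by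
  rw [Finsupp.le_def]; intro v
  have := divT_nonneg Tz v
  rw [divM_apply]
  simp only [Finsupp.coe_smul, Pi.smul_apply, nsmul_eq_mul]
  nlinarith [Nat.cast_nonneg (α := ℤ) n]

theorem nsmul_divT_le_divM_left (n : ℕ) : n • divT Tz ≤ divM Tz Ti n := by
  rw [Finsupp.le_def]; intro v
  have := divT_nonneg Ti v
  rw [divM_apply]
  simp only [Finsupp.coe_smul, Pi.smul_apply, nsmul_eq_mul]
  nlinarith [Nat.cast_nonneg (α := ℤ) n]

theorem L_sup_le (n : ℕ) :
    riemannRochSpace (n • divT Ti) ⊔ riemannRochSpace (n • divT Tz) ≤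
      riemannRochSpace (divM Tz Ti n) :=
  sup_le (L_mono (nsmul_divT_le_divM_right Tz Ti n)) (L_mono (nsmul_divT_le_divM_left Tz Ti n))

theorem LM_le_holOff (n : ℕ) :
    riemannRochSpace (divM Tz Ti n) ≤
      Subalgebra.toSubmodule (holOff ((Tz : Set (Place K F)) ∪ Ti)) := by
  intro f hf v hv
  have hvz : v ∉ Tz := fun h => hv (Or.inl (Finset.mem_coe.mpr h))
  have hvi : v ∉ Ti := fun h => hv (Or.inr (Finset.mem_coe.mpr h))
  rcases mem_L_iff.mp hf v with h | h
  · rw [h, v.ord_zero]
  · simpa [divM_apply, divT_apply_not_mem hvz, divT_apply_not_mem hvi] using h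

theorem exists_mem_LM_of_mem_holOff {f : F}
    (hf : f ∈ holOff ((Tz : Set (Place K F)) ∪ Ti)) :
    ∃ n : ℕ, f ∈ riemannRochSpace (divM Tz Ti n) := by
  classical
  refine ⟨∑ v ∈ Tz, (v.ord f).natAbs + ∑ v ∈ Ti, (v.ord f).natAbs, ?_⟩
  rw [mem_L_iff]
  intro v
  right
  rw [divM_apply]
  have hz := divT_nonneg Tz v
  have hi := divT_nonneg Ti v
  by_cases hvz : v ∈ Tz
  · have h1 : (v.ord f).natAbs ≤ ∑ w ∈ Tz, (w.ord f).natAbs :=
      Finset.single_le_sum (f := fun w => (w.ord f).natAbs) (fun _ _ => Nat.zero_le _) hvz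
    rw [divT_apply_mem hvz]
    push_cast
    have h2 : (0 : ℤ) ≤ ∑ x ∈ Ti, |x.ord f| := Finset.sum_nonneg fun _ _ => abs_nonneg _
    have h3 : (|v.ord f| : ℤ) ≤ ∑ x ∈ Tz, |x.ord f| :=
      Finset.single_le_sum (f := fun w => |w.ord f|) (fun _ _ => abs_nonneg _) hvz
    have h4 := neg_abs_le (v.ord f)
    have h5 : (0 : ℤ) ≤ (∑ x ∈ Tz, |x.ord f| + ∑ x ∈ Ti, |x.ord f|) * divT Ti v :=
      mul_nonneg (by linarith [abs_nonneg (v.ord f)]) hi
    linarith
  · by_cases hvi : v ∈ Ti
    · rw [divT_apply_mem hvi, divT_apply_not_mem hvz]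
      push_cast
      have h2 : (0 : ℤ) ≤ ∑ x ∈ Tz, |x.ord f| := Finset.sum_nonneg fun _ _ => abs_nonneg _
      have h3 : (|v.ord f| : ℤ) ≤ ∑ x ∈ Ti, |x.ord f| :=
        Finset.single_le_sum (f := fun w => |w.ord f|) (fun _ _ => abs_nonneg _) hvi
      have h4 := neg_abs_le (v.ord f)
      linarith
    · have := hf v (by
        rintro (h | h)
        · exact hvz (Finset.mem_coe.mp h)
        · exact hvi (Finset.mem_coe.mp h))
      rw [divT_apply_not_mem hvz, divT_apply_not_mem hvi]
      simpa using this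

/-- `m ≤ ord (f - g)` if `m ≤ 0`, `m ≤ ord f`, `m ≤ ord g` (no nonvanishing needed). -/
theorem le_ord_sub (v : Place K F) {f g : F} {m : ℤ} (hm : m ≤ 0) (hf : m ≤ v.ord f)
    (hg : m ≤ v.ord g) : m ≤ v.ord (f - g) := by
  have h := ord_add_of_le v (f := f) (g := -g) (n := m) (Or.inr hf)
    (Or.inr (by rw [ord_neg]; exact hg))
  rw [← sub_eq_add_neg] at h
  rcases h with h | h
  · rw [h, v.ord_zero]; exact hm
  · exact h

/-- Key separation: an element of `B₀ + B∞` lying in `L(n(Tz + Ti))` lies in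
`L(n Ti) + L(n Tz)`. -/
theorem sup_inf_L_le (hdisj : Disjoint Tz Ti) (n : ℕ) :
    (Subalgebra.toSubmodule (holOff (Ti : Set (Place K F))) ⊔
        Subalgebra.toSubmodule (holOff (Tz : Set (Place K F)))) ⊓
        riemannRochSpace (divM Tz Ti n) ≤
      riemannRochSpace (n • divT Ti) ⊔ riemannRochSpace (n • divT Tz) := by
  classical
  rintro f ⟨hf1, hf2⟩
  obtain ⟨a, ha, b, hb, rfl⟩ := Submodule.mem_sup.mp hf1
  have ha' : ∀ v : Place K F, v ∉ Ti → 0 ≤ v.ord a := fun v hv =>
    ha v (fun h => hv (Finset.mem_coe.mp h))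
  have hb' : ∀ v : Place K F, v ∉ Tz → 0 ≤ v.ord b := fun v hv =>
    hb v (fun h => hv (Finset.mem_coe.mp h))
  have hab : ∀ v : Place K F, -(divM Tz Ti n v) ≤ v.ord (a + b) := by
    intro v
    rcases mem_L_iff.mp hf2 v with h | h
    · rw [h, v.ord_zero, divM_apply]
      have hz := divT_nonneg Tz v
      have hi := divT_nonneg Ti v
      nlinarith [Nat.cast_nonneg (α := ℤ) n]
    · exact h
  refine Submodule.add_mem_sup ?_ ?_
  · rw [mem_L_iff]; intro v; right
    by_cases hv : v ∈ Ti
    · have hv0 : v ∉ Tz := Finset.disjoint_right.mp hdisj hv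
      have h1 := hab v
      rw [divM_apply, divT_apply_mem hv, divT_apply_not_mem hv0] at h1
      simp only [Finsupp.coe_smul, Pi.smul_apply, nsmul_eq_mul, divT_apply_mem hv, mul_one]
      have h2 := le_ord_sub v (f := a + b) (g := b) (m := -(n : ℤ)) (by omega) (by omega)
        (by have := hb' v hv0; omega)
      simpa using h2
    · have := ha' v hv
      simp only [Finsupp.coe_smul, Pi.smul_apply, nsmul_eq_mul, divT_apply_not_mem hv, mul_zero,
        neg_zero]
      exact this
  · rw [mem_L_iff]; intro v; right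
    by_cases hv : v ∈ Tz
    · have hv0 : v ∉ Ti := Finset.disjoint_left.mp hdisj hv
      have h1 := hab v
      rw [divM_apply, divT_apply_mem hv, divT_apply_not_mem hv0] at h1
      simp only [Finsupp.coe_smul, Pi.smul_apply, nsmul_eq_mul, divT_apply_mem hv, mul_one]
      have h2 := le_ord_sub v (f := a + b) (g := a) (m := -(n : ℤ)) (by omega) (by omega)
        (by have := ha' v hv0; omega)
      simpa using h2
    · have := hb' v hv
      simp only [Finsupp.coe_smul, Pi.smul_apply, nsmul_eq_mul, divT_apply_not_mem hv, mul_zero,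
        neg_zero]
      exact this

theorem sup_inf_L_eq (hdisj : Disjoint Tz Ti) (n : ℕ) :
    (Subalgebra.toSubmodule (holOff (Ti : Set (Place K F))) ⊔
        Subalgebra.toSubmodule (holOff (Tz : Set (Place K F)))) ⊓
        riemannRochSpace (divM Tz Ti n) =
      riemannRochSpace (n • divT Ti) ⊔ riemannRochSpace (n • divT Tz) := by
  apply le_antisymm (sup_inf_L_le Tz Ti hdisj n)
  exact le_inf (sup_le_sup (L_le_holOff Ti n) (L_le_holOff Tz n)) (L_sup_le Tz Ti n)

/-- `L(n Ti) ∩ L(n Tz) = L(0)`. -/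
theorem L_inf_eq (hdisj : Disjoint Tz Ti) (n : ℕ) :
    riemannRochSpace (n • divT Ti) ⊓ riemannRochSpace (n • divT Tz) =
      riemannRochSpace (0 : Divisor K F) := by
  classical
  apply le_antisymm
  · rintro f ⟨h1, h2⟩
    rw [mem_L_iff]
    intro v
    by_cases hv : v ∈ Ti
    · have hv0 : v ∉ Tz := Finset.disjoint_right.mp hdisj hv
      have := mem_L_iff.mp h2 v
      simpa [divT_apply_not_mem hv0] using this
    · have := mem_L_iff.mp h1 v
      simpa [divT_apply_not_mem hv] using this
  · refine le_inf (L_mono ?_) (L_mono ?_)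
    · rw [Finsupp.le_def]; intro v
      have := divT_nonneg Ti v
      simp only [Finsupp.coe_zero, Pi.zero_apply, Finsupp.coe_smul, Pi.smul_apply, nsmul_eq_mul]
      positivity
    · rw [Finsupp.le_def]; intro v
      have := divT_nonneg Tz v
      simp only [Finsupp.coe_zero, Pi.zero_apply, Finsupp.coe_smul, Pi.smul_apply, nsmul_eq_mul]
      positivity

end Cech

/-! ### Dimension count and the main theorem -/

section Main

variable [FF1 K F] (Tz Ti : Finset (Place K F))

theorem degree_nsmul_divT (T : Finset (Place K F)) (n : ℕ) :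
    Divisor.degree (n • divT T) = n * T.card := by
  rw [map_nsmul, degree_divT]; simp

theorem degree_divM (n : ℕ) :
    Divisor.degree (divM Tz Ti n) = n * Tz.card + n * Ti.card := by
  rw [divM, map_add, degree_nsmul_divT, degree_nsmul_divT]

/-- **Čech formula for the genus** (image form): the image of `Bm = holOff (Tz ∪ Ti)` in
`F ⧸ (B₀ + B∞)`, `B₀ = holOff Ti`, `B∞ = holOff Tz`, has dimension `g`. -/
theorem finrank_cech_map {g : ℕ} (hg : IsRiemannGenus K F g)
    (hdisj : Disjoint Tz Ti) (hz : Tz.Nonempty) (hi : Ti.Nonempty) :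
    Module.Finite K ↥((Subalgebra.toSubmodule (holOff ((Tz : Set (Place K F)) ∪ Ti))).map
        (Subalgebra.toSubmodule (holOff (Ti : Set (Place K F))) ⊔
          Subalgebra.toSubmodule (holOff (Tz : Set (Place K F)))).mkQ) ∧
      Module.finrank K ↥((Subalgebra.toSubmodule (holOff ((Tz : Set (Place K F)) ∪ Ti))).map
        (Subalgebra.toSubmodule (holOff (Ti : Set (Place K F))) ⊔
          Subalgebra.toSubmodule (holOff (Tz : Set (Place K F)))).mkQ) = g := by
  obtain ⟨c, hc⟩ := hg
  have hz1 : 1 ≤ Tz.card := Finset.card_pos.mpr hz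
  have hi1 : 1 ≤ Ti.card := Finset.card_pos.mpr hi
  refine finrank_map_mkQ_of_exhaust _ _ (fun n => riemannRochSpace (divM Tz Ti n))
    (fun m n h => L_mono (divM_mono Tz Ti h)) (fun n => inferInstance)
    (fun n => LM_le_holOff Tz Ti n) (fun f hf => exists_mem_LM_of_mem_holOff Tz Ti hf)
    g c.toNat ?_
  intro n hn
  have hcn : c ≤ n := by
    have := Int.self_le_toNat c
    have : ((c.toNat : ℕ) : ℤ) ≤ (n : ℤ) := by exact_mod_cast hn
    omega
  have hnn : (0 : ℤ) ≤ n := Int.natCast_nonneg n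
  have hzc : (n : ℤ) ≤ n * Tz.card := by
    have : (1 : ℤ) ≤ Tz.card := by exact_mod_cast hz1
    nlinarith
  have hic : (n : ℤ) ≤ n * Ti.card := by
    have : (1 : ℤ) ≤ Ti.card := by exact_mod_cast hi1
    nlinarith
  have e1 := hc (n • divT Ti) (by rw [degree_nsmul_divT]; omega)
  have e2 := hc (n • divT Tz) (by rw [degree_nsmul_divT]; omega)
  have e3 := hc (divM Tz Ti n) (by rw [degree_divM]; omega)
  rw [degree_nsmul_divT] at e1 e2
  rw [degree_divM] at e3
  rw [sup_inf_L_eq Tz Ti hdisj n]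
  have h4 := Submodule.finrank_sup_add_finrank_inf_eq (riemannRochSpace (n • divT Ti))
    (riemannRochSpace (n • divT Tz))
  rw [L_inf_eq Tz Ti hdisj n] at h4
  have h5 : Module.finrank K ↥(riemannRochSpace (0 : Divisor K F)) = 1 := ell_zero
  rw [h5] at h4
  unfold ell at e1 e2 e3
  have h6 : (Module.finrank K ↥(riemannRochSpace (n • divT Ti) ⊔ riemannRochSpace (n • divT Tz)) : ℤ)
      + 1 = Module.finrank K ↥(riemannRochSpace (n • divT Ti)) +
        Module.finrank K ↥(riemannRochSpace (n • divT Tz)) := by exact_mod_cast h4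
  have h7 : (Module.finrank K ↥(riemannRochSpace (divM Tz Ti n)) : ℤ) =
      Module.finrank K ↥(riemannRochSpace (n • divT Ti) ⊔ riemannRochSpace (n • divT Tz)) +
        g := by
    rw [e3]; linarith
  exact_mod_cast h7

end Main

/-! ### Packaged form and corollaries -/

section Corollaries

variable (Tz Ti : Finset (Place K F))

/-- `B₀ + B∞`, the sum of the two chart algebras (as a `K`-subspace of `F`). -/
def cechW : Submodule K F :=
  Subalgebra.toSubmodule (holOff (Ti : Set (Place K F))) ⊔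
    Subalgebra.toSubmodule (holOff (Tz : Set (Place K F)))

/-- `Bm`, the functions regular on the intersection of the two charts. -/
def cechM : Submodule K F :=
  Subalgebra.toSubmodule (holOff ((Tz : Set (Place K F)) ∪ Ti))

/-- The Čech `H¹`: the image of `Bm` in `F ⧸ (B₀ + B∞)`. -/
def cechH1 : Submodule K (F ⧸ cechW Tz Ti) := (cechM Tz Ti).map (cechW Tz Ti).mkQ

theorem cechW_le_cechM : cechW Tz Ti ≤ cechM Tz Ti :=
  sup_le (holOff_mono (fun _ h => Or.inr h)) (holOff_mono (fun _ h => Or.inl h))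

variable [FF1 K F]

theorem finite_cechH1 {g : ℕ} (hg : IsRiemannGenus K F g)
    (hdisj : Disjoint Tz Ti) (hz : Tz.Nonempty) (hi : Ti.Nonempty) :
    Module.Finite K ↥(cechH1 Tz Ti) :=
  (finrank_cech_map Tz Ti hg hdisj hz hi).1

/-- **Čech formula for the genus.** -/
theorem finrank_cechH1 {g : ℕ} (hg : IsRiemannGenus K F g)
    (hdisj : Disjoint Tz Ti) (hz : Tz.Nonempty) (hi : Ti.Nonempty) :
    Module.finrank K ↥(cechH1 Tz Ti) = g :=
  (finrank_cech_map Tz Ti hg hdisj hz hi).2

/-- The quotient `Bm ⧸ (B₀ + B∞)` is isomorphic to the Čech `H¹`. -/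
def cechQuotEquiv :
    (↥(cechM Tz Ti) ⧸ (cechW Tz Ti).submoduleOf (cechM Tz Ti)) ≃ₗ[K] ↥(cechH1 Tz Ti) :=
  ((Submodule.quotEquivOfEq _ _ (by
      rw [LinearMap.ker_comp, Submodule.ker_mkQ]; rfl)).trans
    (LinearMap.quotKerEquivRange ((cechW Tz Ti).mkQ.comp (cechM Tz Ti).subtype))).trans
    (LinearEquiv.ofEq _ _ (by
      rw [LinearMap.range_comp, Submodule.range_subtype]; rfl))

/-- **Čech formula for the genus**, quotient form:
`dim_K Bm ⧸ (B₀ + B∞) = g`. -/
theorem finrank_cech_quot {g : ℕ} (hg : IsRiemannGenus K F g)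
    (hdisj : Disjoint Tz Ti) (hz : Tz.Nonempty) (hi : Ti.Nonempty) :
    Module.Finite K (↥(cechM Tz Ti) ⧸ (cechW Tz Ti).submoduleOf (cechM Tz Ti)) ∧
      Module.finrank K (↥(cechM Tz Ti) ⧸ (cechW Tz Ti).submoduleOf (cechM Tz Ti)) = g := by
  have hfin := finite_cechH1 Tz Ti hg hdisj hz hi
  refine ⟨Module.Finite.equiv (cechQuotEquiv Tz Ti).symm, ?_⟩
  rw [(cechQuotEquiv Tz Ti).finrank_eq]
  exact finrank_cechH1 Tz Ti hg hdisj hz hi

/-- Upper bound for the genus: if `Bm` is spanned by `B₀ + B∞` and a finite family `h`, then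
`g ≤ #h`. -/
theorem genus_le_of_span {g : ℕ} (hg : IsRiemannGenus K F g)
    (hdisj : Disjoint Tz Ti) (hz : Tz.Nonempty) (hi : Ti.Nonempty)
    {ι : Type*} [Fintype ι] (h : ι → F)
    (hspan : cechM Tz Ti ≤ Submodule.span K (Set.range h) ⊔ cechW Tz Ti) :
    g ≤ Fintype.card ι := by
  have h1 : cechH1 Tz Ti ≤ (Submodule.span K (Set.range h)).map (cechW Tz Ti).mkQ := by
    unfold cechH1
    refine (Submodule.map_mono hspan).trans ?_
    rw [Submodule.map_sup]
    rw [Submodule.mkQ_map_self, sup_bot_eq]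
  have hfs : Module.Finite K ↥(Submodule.span K (Set.range h)) :=
    FiniteDimensional.span_of_finite K (Set.finite_range h)
  have h2 := Submodule.finrank_mono h1
  rw [finrank_cechH1 Tz Ti hg hdisj hz hi] at h2
  have h3 : Module.finrank K ↥((Submodule.span K (Set.range h)).map (cechW Tz Ti).mkQ) ≤
      Module.finrank K ↥(Submodule.span K (Set.range h)) :=
    Submodule.finrank_map_le _ _
  have h4 : Module.finrank K ↥(Submodule.span K (Set.range h)) ≤ Fintype.card ι :=
    finrank_range_le_card (R := K) h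
  omega

/-- Lower bound for the genus: a finite family in `Bm` which is linearly independent modulo
`B₀ + B∞` has at most `g` elements. -/
theorem le_genus_of_indep {g : ℕ} (hg : IsRiemannGenus K F g)
    (hdisj : Disjoint Tz Ti) (hz : Tz.Nonempty) (hi : Ti.Nonempty)
    {ι : Type*} [Fintype ι] (h : ι → F) (hM : ∀ i, h i ∈ cechM Tz Ti)
    (hind : LinearIndependent K (fun i => (cechW Tz Ti).mkQ (h i))) :
    Fintype.card ι ≤ g := by
  have hfin := finite_cechH1 Tz Ti hg hdisj hz hi
  let b : ι → ↥(cechH1 Tz Ti) := fun i => ⟨(cechW Tz Ti).mkQ (h i), Submodule.mem_map_of_mem (hM i)⟩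
  have hb : LinearIndependent K b := by
    apply LinearIndependent.of_comp (cechH1 Tz Ti).subtype
    exact hind
  have := hb.fintype_card_le_finrank
  rwa [finrank_cechH1 Tz Ti hg hdisj hz hi] at this

/-- Elementary form of the independence hypothesis. -/
theorem le_genus_of_indep' {g : ℕ} (hg : IsRiemannGenus K F g)
    (hdisj : Disjoint Tz Ti) (hz : Tz.Nonempty) (hi : Ti.Nonempty)
    {ι : Type*} [Fintype ι] (h : ι → F) (hM : ∀ i, h i ∈ cechM Tz Ti)
    (hind : ∀ c : ι → K, ∑ i, c i • h i ∈ cechW Tz Ti → c = 0) :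
    Fintype.card ι ≤ g := by
  refine le_genus_of_indep Tz Ti hg hdisj hz hi h hM ?_
  rw [Fintype.linearIndependent_iff]
  intro c hc i
  have h1 : (cechW Tz Ti).mkQ (∑ i, c i • h i) = 0 := by
    rw [map_sum]
    simpa [map_smul] using hc
  have h2 : ∑ i, c i • h i ∈ cechW Tz Ti := by
    rwa [Submodule.mkQ_apply, Submodule.Quotient.mk_eq_zero] at h1
  exact congrFun (hind c h2) i

end Corollaries

end Fermat.Agent.Lib.RR.H638
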