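import Fermat.Agent.Lib.RR.H638.Cech

/-!
# Čech formula for the two charts of a nonconstant function (helper638)

For a nonconstant `x : F` the finite sets `zerosOf x`, `polesOf x` are disjoint and nonempty, and

* `holOff (polesOf x) = {f | ∀ v, 0 ≤ ord_v x → 0 ≤ ord_v f}`  (the "finite chart" `B₀`),
* `holOff (zerosOf x) = {f | ∀ v, ord_v x ≤ 0 → 0 ≤ ord_v f}`  (the "chart at infinity" `B∞`),
* `holOff (zerosOf x ∪ polesOf x) = {f | ∀ v, ord_v x = 0 → 0 ≤ ord_v f}`  (`Bm`).

Hence `dim_K Bm / (B₀ + B∞) = g` (`finrank_cech_of_fun`).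
-/

set_option autoImplicit false

noncomputable section

open AlgebraicCurve

namespace Fermat.Agent.Lib.RR.H638

open Fermat.Agent.Lib.RR

variable {K F : Type*} [Field K] [Field F] [Algebra K F] [FF1 K F]

open scoped Classical in
/-- The zeros of a nonzero function. -/
def zerosOf (x : F) (hx : x ≠ 0) : Finset (Place K F) :=
  (divOf (K := K) x hx).support.filter (fun v => 0 < v.ord x)

open scoped Classical in
/-- The poles of a nonzero function. -/
def polesOf (x : F) (hx : x ≠ 0) : Finset (Place K F) :=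
  (divOf (K := K) x hx).support.filter (fun v => v.ord x < 0)

theorem mem_zerosOf {x : F} {hx : x ≠ 0} {v : Place K F} :
    v ∈ zerosOf (K := K) x hx ↔ 0 < v.ord x := by
  classical
  unfold zerosOf
  rw [Finset.mem_filter, Finsupp.mem_support_iff, divOf_apply]
  exact ⟨fun h => h.2, fun h => ⟨ne_of_gt h, h⟩⟩

theorem mem_polesOf {x : F} {hx : x ≠ 0} {v : Place K F} :
    v ∈ polesOf (K := K) x hx ↔ v.ord x < 0 := by
  classical
  unfold polesOf
  rw [Finset.mem_filter, Finsupp.mem_support_iff, divOf_apply]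
  exact ⟨fun h => h.2, fun h => ⟨ne_of_lt h, h⟩⟩

theorem disjoint_zerosOf_polesOf (x : F) (hx : x ≠ 0) :
    Disjoint (zerosOf (K := K) x hx) (polesOf (K := K) x hx) := by
  rw [Finset.disjoint_left]
  intro v hz hp
  rw [mem_zerosOf] at hz
  rw [mem_polesOf] at hp
  omega

/-- A function without poles is constant. -/
theorem mem_range_of_polesOf_eq_empty {x : F} {hx : x ≠ 0}
    (h : polesOf (K := K) x hx = ∅) : x ∈ Set.range (algebraMap K F) := by
  have hL : x ∈ riemannRochSpace (0 : Divisor K F) := by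
    rw [mem_L_iff]
    intro v
    right
    have hv : v ∉ polesOf (K := K) x hx := by rw [h]; exact Finset.notMem_empty v
    rw [mem_polesOf] at hv
    simpa using not_lt.mp hv
  rw [L_zero] at hL
  obtain ⟨c, hc⟩ := hL
  exact ⟨c, hc⟩

theorem polesOf_nonempty {x : F} (hx : x ≠ 0) (hxc : x ∉ Set.range (algebraMap K F)) :
    (polesOf (K := K) x hx).Nonempty := by
  rw [Finset.nonempty_iff_ne_empty]
  exact fun h => hxc (mem_range_of_polesOf_eq_empty h)

theorem zerosOf_nonempty {x : F} (hx : x ≠ 0) (hxc : x ∉ Set.range (algebraMap K F)) :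
    (zerosOf (K := K) x hx).Nonempty := by
  have hinv : x⁻¹ ∉ Set.range (algebraMap K F) := by
    rintro ⟨c, hc⟩
    apply hxc
    refine ⟨c⁻¹, ?_⟩
    rw [map_inv₀, hc, inv_inv]
  obtain ⟨v, hv⟩ := polesOf_nonempty (K := K) (inv_ne_zero hx) hinv
  refine ⟨v, ?_⟩
  rw [mem_polesOf, v.ord_inv] at hv
  rw [mem_zerosOf]
  omega

theorem mem_holOff_polesOf {x : F} {hx : x ≠ 0} {f : F} :
    f ∈ holOff ((polesOf (K := K) x hx : Finset (Place K F)) : Set (Place K F)) ↔
      ∀ v : Place K F, 0 ≤ v.ord x → 0 ≤ v.ord f := by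
  rw [mem_holOff]
  refine forall_congr' fun v => ?_
  rw [Finset.mem_coe, mem_polesOf, not_lt]

theorem mem_holOff_zerosOf {x : F} {hx : x ≠ 0} {f : F} :
    f ∈ holOff ((zerosOf (K := K) x hx : Finset (Place K F)) : Set (Place K F)) ↔
      ∀ v : Place K F, v.ord x ≤ 0 → 0 ≤ v.ord f := by
  rw [mem_holOff]
  refine forall_congr' fun v => ?_
  rw [Finset.mem_coe, mem_zerosOf, not_lt]

theorem mem_holOff_zerosOf_union_polesOf {x : F} {hx : x ≠ 0} {f : F} :
    f ∈ holOff (((zerosOf (K := K) x hx : Finset (Place K F)) : Set (Place K F)) ∪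
        (polesOf (K := K) x hx : Finset (Place K F))) ↔
      ∀ v : Place K F, v.ord x = 0 → 0 ≤ v.ord f := by
  rw [mem_holOff]
  refine forall_congr' fun v => ?_
  rw [Set.mem_union, Finset.mem_coe, Finset.mem_coe, mem_zerosOf, mem_polesOf]
  constructor
  · intro h h0; exact h (by omega)
  · intro h h0; exact h (by omega)

/-- `B₀ + B∞` for the function `x`. -/
def funW (x : F) (hx : x ≠ 0) : Submodule K F :=
  cechW (zerosOf (K := K) x hx) (polesOf (K := K) x hx)

/-- `Bm` for the function `x`. -/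
def funM (x : F) (hx : x ≠ 0) : Submodule K F :=
  cechM (zerosOf (K := K) x hx) (polesOf (K := K) x hx)

theorem mem_funM {x : F} {hx : x ≠ 0} {f : F} :
    f ∈ funM (K := K) x hx ↔ ∀ v : Place K F, v.ord x = 0 → 0 ≤ v.ord f :=
  mem_holOff_zerosOf_union_polesOf

theorem mem_funW {x : F} {hx : x ≠ 0} {f : F} :
    f ∈ funW (K := K) x hx ↔ ∃ a b : F, (∀ v : Place K F, 0 ≤ v.ord x → 0 ≤ v.ord a) ∧
      (∀ v : Place K F, v.ord x ≤ 0 → 0 ≤ v.ord b) ∧ a + b = f := by
  unfold funW cechW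
  rw [Submodule.mem_sup]
  constructor
  · rintro ⟨a, ha, b, hb, rfl⟩
    exact ⟨a, b, mem_holOff_polesOf.mp ha, mem_holOff_zerosOf.mp hb, rfl⟩
  · rintro ⟨a, b, ha, hb, rfl⟩
    exact ⟨a, mem_holOff_polesOf.mpr ha, b, mem_holOff_zerosOf.mpr hb, rfl⟩

/-- **Čech formula for the genus, for the two charts `x ≠ ∞`, `x ≠ 0`** of a nonconstant
function `x`:  `dim_K Bm ⧸ (B₀ + B∞) = g`. -/
theorem finrank_cech_of_fun {g : ℕ} (hg : IsRiemannGenus K F g) {x : F} (hx : x ≠ 0)
    (hxc : x ∉ Set.range (algebraMap K F)) :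
    Module.Finite K (↥(funM (K := K) x hx) ⧸ (funW (K := K) x hx).submoduleOf (funM x hx)) ∧
      Module.finrank K (↥(funM (K := K) x hx) ⧸ (funW (K := K) x hx).submoduleOf (funM x hx))
        = g :=
  finrank_cech_quot _ _ hg (disjoint_zerosOf_polesOf x hx) (zerosOf_nonempty hx hxc)
    (polesOf_nonempty hx hxc)

/-- Upper bound: `g ≤ #h` if `Bm ⊆ span h + B₀ + B∞`. -/
theorem genus_le_of_span_fun {g : ℕ} (hg : IsRiemannGenus K F g) {x : F} (hx : x ≠ 0)
    (hxc : x ∉ Set.range (algebraMap K F)) {ι : Type*} [Fintype ι] (h : ι → F)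
    (hspan : funM (K := K) x hx ≤ Submodule.span K (Set.range h) ⊔ funW x hx) :
    g ≤ Fintype.card ι :=
  genus_le_of_span _ _ hg (disjoint_zerosOf_polesOf x hx) (zerosOf_nonempty hx hxc)
    (polesOf_nonempty hx hxc) h hspan

/-- Lower bound: `#h ≤ g` if the `h i ∈ Bm` are linearly independent modulo `B₀ + B∞`. -/
theorem le_genus_of_indep_fun {g : ℕ} (hg : IsRiemannGenus K F g) {x : F} (hx : x ≠ 0)
    (hxc : x ∉ Set.range (algebraMap K F)) {ι : Type*} [Fintype ι] (h : ι → F)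
    (hM : ∀ i, h i ∈ funM (K := K) x hx)
    (hind : ∀ c : ι → K, ∑ i, c i • h i ∈ funW (K := K) x hx → c = 0) :
    Fintype.card ι ≤ g :=
  le_genus_of_indep' _ _ hg (disjoint_zerosOf_polesOf x hx) (zerosOf_nonempty hx hxc)
    (polesOf_nonempty hx hxc) h hM hind

end Fermat.Agent.Lib.RR.H638
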